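/-
W2-C (S55) block F, abstract core (helper15): descent of representations and of inhomogeneous
1- and 2-cochains along a surjective group homomorphism `π : G →* Γ` whose kernel acts trivially.

* `H15F.descRep π hπ M htriv : Rep k Γ`  with  `(descRep …).ρ (π g) = M.ρ g`.
* `H15F.IsRConst₁ N f`, `IsRConst₂ N f` : right-invariance of cochains under a subgroup `N`.
* `H15F.desc₁`, `desc₂` : the descended cochains `f ∘ lift`; `desc_comp` lemmas; cocycle /
  coboundary descent.
-/
import Mathlib

set_option autoImplicit false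

noncomputable section

namespace H15F

open groupCohomology

section sets

variable {G Γ X : Type*} [Group G] [Group Γ]

/-- right-invariance of a 1-cochain under a subgroup -/
def IsRConst₁ (N : Subgroup G) (f : G → X) : Prop := ∀ g s, s ∈ N → f (g * s) = f g

/-- right-invariance of a 2-cochain under a subgroup (both variables) -/
def IsRConst₂ (N : Subgroup G) (f : G × G → X) : Prop :=
  ∀ g g' s s', s ∈ N → s' ∈ N → f (g * s, g' * s') = f (g, g')

theorem IsRConst₁.mono {N N' : Subgroup G} (h : N' ≤ N) {f : G → X} (hf : IsRConst₁ N f) :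
    IsRConst₁ N' f := fun g s hs => hf g s (h hs)

theorem IsRConst₂.mono {N N' : Subgroup G} (h : N' ≤ N) {f : G × G → X} (hf : IsRConst₂ N f) :
    IsRConst₂ N' f := fun g g' s s' hs hs' => hf g g' s s' (h hs) (h hs')

variable (π : G →* Γ) (hπ : Function.Surjective π)

/-- the chosen set-theoretic section of `π` -/
def lift (γ : Γ) : G := Function.surjInv hπ γ

@[simp] theorem π_lift (γ : Γ) : π (lift π hπ γ) = γ := Function.surjInv_eq hπ γ

theorem lift_π_mem (g : G) : g⁻¹ * lift π hπ (π g) ∈ π.ker := by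
  rw [MonoidHom.mem_ker, map_mul, map_inv, π_lift, inv_mul_cancel]

theorem apply_lift_π {f : G → X} (hf : IsRConst₁ π.ker f) (g : G) :
    f (lift π hπ (π g)) = f g := by
  have := hf g _ (lift_π_mem π hπ g)
  rwa [mul_inv_cancel_left] at this

theorem apply_lift_π₂ {f : G × G → X} (hf : IsRConst₂ π.ker f) (g g' : G) :
    f (lift π hπ (π g), lift π hπ (π g')) = f (g, g') := by
  have := hf g g' _ _ (lift_π_mem π hπ g) (lift_π_mem π hπ g')
  rwa [mul_inv_cancel_left, mul_inv_cancel_left] at this

/-- the descended 1-cochain -/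
def desc₁ (f : G → X) : Γ → X := fun γ => f (lift π hπ γ)

/-- the descended 2-cochain -/
def desc₂ (f : G × G → X) : Γ × Γ → X := fun γ => f (lift π hπ γ.1, lift π hπ γ.2)

theorem desc₁_π {f : G → X} (hf : IsRConst₁ π.ker f) (g : G) : desc₁ π hπ f (π g) = f g :=
  apply_lift_π π hπ hf g

theorem desc₂_π {f : G × G → X} (hf : IsRConst₂ π.ker f) (g g' : G) :
    desc₂ π hπ f (π g, π g') = f (g, g') :=
  apply_lift_π₂ π hπ hf g g'

theorem isRConst₁_comp (f : Γ → X) : IsRConst₁ π.ker (fun g => f (π g)) := by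
  intro g s hs
  simp only [map_mul, MonoidHom.mem_ker.mp hs, mul_one]

theorem isRConst₂_comp (f : Γ × Γ → X) : IsRConst₂ π.ker (fun g => f (π g.1, π g.2)) := by
  intro g g' s s' hs hs'
  simp only [map_mul, MonoidHom.mem_ker.mp hs, MonoidHom.mem_ker.mp hs', mul_one]

theorem desc₁_comp (f : Γ → X) : desc₁ π hπ (fun g => f (π g)) = f := by
  funext γ; simp [desc₁]

theorem desc₂_comp (f : Γ × Γ → X) : desc₂ π hπ (fun g => f (π g.1, π g.2)) = f := by
  funext γ; simp [desc₂]

end sets

section rep

variable {k : Type*} [CommRing k] {G Γ : Type*} [Group G] [Group Γ]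
  {V : Type*} [AddCommGroup V] [Module k V]
  (π : G →* Γ) (hπ : Function.Surjective π)

theorem rho_eq_of_π_eq (ρ : Representation k G V) (htriv : ∀ s ∈ π.ker, ρ s = 1) {a b : G}
    (h : π a = π b) : ρ a = ρ b := by
  have h1 : b⁻¹ * a ∈ π.ker := by rw [MonoidHom.mem_ker, map_mul, map_inv, h, inv_mul_cancel]
  have h2 := htriv _ h1
  have : ρ a = ρ b * ρ (b⁻¹ * a) := by rw [← map_mul, mul_inv_cancel_left]
  rw [this, h2, mul_one]

/-- the representation of `Γ` induced by a representation of `G` on which `ker π` acts trivially -/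
def descRho (ρ : Representation k G V) (htriv : ∀ s ∈ π.ker, ρ s = 1) : Representation k Γ V where
  toFun γ := ρ (lift π hπ γ)
  map_one' := by
    have : π (lift π hπ 1) = π 1 := by rw [π_lift, map_one]
    rw [rho_eq_of_π_eq π ρ htriv this, map_one]
  map_mul' γ γ' := by
    have : π (lift π hπ (γ * γ')) = π (lift π hπ γ * lift π hπ γ') := by
      rw [map_mul, π_lift, π_lift, π_lift]
    rw [rho_eq_of_π_eq π ρ htriv this, map_mul]

@[simp] theorem descRho_π (ρ : Representation k G V) (htriv : ∀ s ∈ π.ker, ρ s = 1) (g : G) :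
    descRho π hπ ρ htriv (π g) = ρ g := by
  show ρ (lift π hπ (π g)) = ρ g
  exact rho_eq_of_π_eq π ρ htriv (π_lift π hπ (π g))

theorem descRho_apply (ρ : Representation k G V) (htriv : ∀ s ∈ π.ker, ρ s = 1) (γ : Γ) :
    descRho π hπ ρ htriv γ = ρ (lift π hπ γ) := rfl

end rep

end H15F

end
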