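/-
W2-C (S55) block F (helper15): conjugation of inertia groups.

For `τ ∈ Gal(ℚ̄/ℚ)` and a valuation subring `A` of `ℚ̄` over a prime `q`: `τ • A` lies over `q`
and `I_{τ • A} = τ I_A τ⁻¹`.  Consequence: if `F` is unramified outside `S`, the inertia groups at
primes outside `S` lie in every conjugate of `Gal(ℚ̄/F)`, hence in its normal core.
-/
import Mathlib
import Fermat.Prelude.Def_GroupCohomology_ContinuousUnramified
import Fermat.Agent.TEll.BRLift

set_option autoImplicit false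

noncomputable section

namespace H15F

open scoped Pointwise
open Fermat.Agent.H22BR

local notation "Qb" => AlgebraicClosure ℚ
local notation "GQ" => (AlgebraicClosure ℚ ≃ₐ[ℚ] AlgebraicClosure ℚ)

theorem h15f_mem_nonunits_iff {L : Type*} [Field L] (A : ValuationSubring L) (x : L) :
    x ∈ A.nonunits ↔ x = 0 ∨ x⁻¹ ∉ A := by
  rw [A.mem_nonunits_iff]
  rcases eq_or_ne x 0 with rfl | hx
  · simp
  · simp only [hx, false_or]
    rw [← A.valuation_le_one_iff, map_inv₀, not_le]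
    have hv : A.valuation x ≠ 0 := (Valuation.ne_zero_iff _).mpr hx
    rw [one_lt_inv₀ (zero_lt_iff.mpr hv)]

theorem h15f_mem_smul_iff (τ : GQ) (A : ValuationSubring Qb) (x : Qb) :
    x ∈ τ • A ↔ τ⁻¹ x ∈ A := by
  rw [ValuationSubring.mem_pointwise_smul_iff_inv_smul_mem]
  rfl

theorem h15f_mem_nonunits_smul_iff (τ : GQ) (A : ValuationSubring Qb) (x : Qb) :
    x ∈ (τ • A).nonunits ↔ τ⁻¹ x ∈ A.nonunits := by
  rw [h15f_mem_nonunits_iff, h15f_mem_nonunits_iff, h15f_mem_smul_iff, map_inv₀]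
  simp

theorem h15f_liesOver_smul (τ : GQ) (A : ValuationSubring Qb) {q : ℕ}
    (hA : A.LiesOverPrime q) : (τ • A).LiesOverPrime q := by
  unfold ValuationSubring.LiesOverPrime at hA ⊢
  rw [h15f_mem_nonunits_smul_iff]
  simpa using hA

theorem h15f_mem_inertia_smul_iff (τ : GQ) (A : ValuationSubring Qb) {q : ℕ} (hq : q.Prime)
    (hA : A.LiesOverPrime q) (g : GQ) :
    g ∈ (τ • A).inertiaSubgroupIn ℚ ↔ τ⁻¹ * g * τ ∈ A.inertiaSubgroupIn ℚ := by
  rw [h22_mem_inertia_iff (τ • A) hq (h15f_liesOver_smul τ A hA),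
    h22_mem_inertia_iff A hq hA]
  constructor
  · intro h b hb
    have hb' : IsIntegral ℤ (τ b) := hb.map (τ : GQ).toAlgHom.toIntAlgHom
    have h1 := h (τ b) hb'
    rw [h15f_mem_nonunits_smul_iff, map_sub] at h1
    have h2 : τ⁻¹ (τ b) = b := by
      show (τ⁻¹ * τ) b = b
      simp
    rw [h2] at h1
    exact h1
  · intro h b hb
    have hb' : IsIntegral ℤ (τ⁻¹ b) := hb.map (τ⁻¹ : GQ).toAlgHom.toIntAlgHom
    have h1 := h (τ⁻¹ b) hb'
    rw [h15f_mem_nonunits_smul_iff, map_sub]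
    have h2 : (τ⁻¹ * g * τ) (τ⁻¹ b) = τ⁻¹ (g b) := by
      show τ⁻¹ (g (τ (τ⁻¹ b))) = τ⁻¹ (g b)
      have : τ (τ⁻¹ b) = b := by
        show (τ * τ⁻¹) b = b
        simp
      rw [this]
    rw [h2] at h1
    exact h1

/-- inertia at primes outside `S` lies in every conjugate of `Gal(ℚ̄/F)` -/
theorem h15f_inertia_le_conj {S : Finset Nat.Primes}
    {F : IntermediateField ℚ Qb} (hF : F.IsUnramifiedOutside S) (q : Nat.Primes) (hq : q ∉ S)
    (A : ValuationSubring Qb) (hA : A.LiesOverPrime (q : ℕ)) (g : GQ)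
    (hg : g ∈ A.inertiaSubgroupIn ℚ) (τ : GQ) : τ * g * τ⁻¹ ∈ F.fixingSubgroup := by
  have h1 := (h15f_mem_inertia_smul_iff τ A q.2 hA (τ * g * τ⁻¹)).mpr (by
    have : τ⁻¹ * (τ * g * τ⁻¹) * τ = g := by group
    rw [this]; exact hg)
  exact hF.2 q hq (τ • A) (h15f_liesOver_smul τ A hA) h1

end H15F

end
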