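/-
W2-C (S55) block F (helper15): levels.

A *level* for `M : Rep k Gal(ℚ̄/ℚ)` relative to `S` is an intermediate field `F`, finite over `ℚ`,
unramified outside `S`, with `Gal(ℚ̄/F)` normal and acting trivially on `M`.
* `IsFinLevel M F`, `IsLevel S M F`;
* `exists_isLevel` : a smooth, finitely generated `M`, unramified outside `S`, has a level;
* `IsLevel.sup`, `exists_isLevel_ge` : levels are cofinal among the finite extensions that are
  unramified outside `S`;  `exists_isFinLevel_ge` : same without ramification conditions.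
-/
import Mathlib
import Fermat.Prelude.Def_GroupCohomology_ContinuousUnramified
import Fermat.Agent.CFT2.F.Conj_helper15

set_option autoImplicit false
set_option linter.style.haveILetI false

noncomputable section

namespace H15F

open scoped Pointwise

local notation "Qb" => AlgebraicClosure ℚ
local notation "GQ" => (AlgebraicClosure ℚ ≃ₐ[ℚ] AlgebraicClosure ℚ)

theorem h15f_isGalois_Qb : IsGalois ℚ Qb := by
  have h : (DivisionRing.toRatAlgebra : Algebra ℚ Qb) = AlgebraicClosure.instAlgebra ℚ :=
    Subsingleton.elim _ _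
  rw [h]
  infer_instance

local instance h15f_inst_isGalois_Qb : IsGalois ℚ Qb := h15f_isGalois_Qb

variable {k : Type} [CommRing k]

/-- a finite level for `M` -/
structure IsFinLevel (M : Rep.{0} k GQ) (F : IntermediateField ℚ Qb) : Prop where
  fin : FiniteDimensional ℚ F
  normal : F.fixingSubgroup.Normal
  triv : ∀ s ∈ F.fixingSubgroup, M.ρ s = 1

/-- a level for `M` relative to `S` -/
structure IsLevel (S : Finset Nat.Primes) (M : Rep.{0} k GQ) (F : IntermediateField ℚ Qb) :
    Prop where
  unram : F.IsUnramifiedOutside S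
  normal : F.fixingSubgroup.Normal
  triv : ∀ s ∈ F.fixingSubgroup, M.ρ s = 1

theorem IsLevel.isFinLevel {S : Finset Nat.Primes} {M : Rep.{0} k GQ}
    {F : IntermediateField ℚ Qb} (h : IsLevel S M F) : IsFinLevel M F :=
  ⟨h.unram.1, h.normal, h.triv⟩

/-- an open subgroup is the fixing subgroup of its fixed field, which is finite over `ℚ` -/
theorem h15f_fixingSubgroup_fixedField_of_isOpen (H : Subgroup GQ)
    (hopen : IsOpen (H : Set GQ)) :
    (IntermediateField.fixedField H).fixingSubgroup = H ∧
      FiniteDimensional ℚ (IntermediateField.fixedField H) := by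
  have hclosed : IsClosed (H : Set GQ) := Subgroup.isClosed_of_isOpen H hopen
  have h1 : (IntermediateField.fixedField H).fixingSubgroup = H :=
    InfiniteGalois.fixingSubgroup_fixedField ⟨H, hclosed⟩
  refine ⟨h1, ?_⟩
  rw [← InfiniteGalois.isOpen_iff_finite]
  show IsOpen ((IntermediateField.fixedField H).fixingSubgroup : Set GQ)
  rw [h1]
  exact hopen

/-- an open subgroup containing the inertia groups outside `S` gives a field unramified
outside `S` -/
theorem h15f_isUnramifiedOutside_fixedField {S : Finset Nat.Primes} (H : Subgroup GQ)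
    (hopen : IsOpen (H : Set GQ))
    (hI : ∀ q : Nat.Primes, q ∉ S → ∀ A : ValuationSubring Qb, A.LiesOverPrime (q : ℕ) →
      A.inertiaSubgroupIn ℚ ≤ H) :
    (IntermediateField.fixedField H).IsUnramifiedOutside S := by
  obtain ⟨h1, h2⟩ := h15f_fixingSubgroup_fixedField_of_isOpen H hopen
  refine ⟨h2, fun q hq A hA => ?_⟩
  rw [h1]
  exact hI q hq A hA

/-- a finitely generated smooth module is fixed by an open subgroup -/
theorem h15f_exists_finite_le_ker (M : Rep.{0} k GQ) [Module.Finite k M]
    (hsm : ∀ m : M, ∃ F : IntermediateField ℚ Qb, FiniteDimensional ℚ F ∧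
      ∀ s ∈ F.fixingSubgroup, M.ρ s m = m) :
    ∃ F : IntermediateField ℚ Qb, FiniteDimensional ℚ F ∧
      ∀ s ∈ F.fixingSubgroup, M.ρ s = 1 := by
  classical
  obtain ⟨t, ht⟩ := (Module.finite_def.mp (inferInstance : Module.Finite k M))
  choose Fm hFm1 hFm2 using hsm
  refine ⟨⨆ m ∈ t, Fm m, ?_, ?_⟩
  · haveI : ∀ m, FiniteDimensional ℚ (Fm m) := hFm1
    exact IntermediateField.finiteDimensional_iSup_of_finset
  · intro s hs
    have hfix : ∀ m ∈ t, M.ρ s m = m := by
      intro m hm
      refine hFm2 m s ?_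
      refine IntermediateField.fixingSubgroup_antitone ?_ hs
      exact le_iSup₂ (f := fun m (_ : m ∈ t) => Fm m) m hm
    have hle : (⊤ : Submodule k M) ≤ LinearMap.eqLocus (M.ρ s) (1 : Module.End k M) := by
      rw [← ht, Submodule.span_le]
      intro m hm
      exact hfix m hm
    apply LinearMap.ext
    intro m
    exact hle (Submodule.mem_top (x := m))

/-- the kernel of a smooth finitely generated representation is open -/
theorem h15f_isOpen_ker (M : Rep.{0} k GQ) [Module.Finite k M]
    (hsm : ∀ m : M, ∃ F : IntermediateField ℚ Qb, FiniteDimensional ℚ F ∧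
      ∀ s ∈ F.fixingSubgroup, M.ρ s m = m) :
    IsOpen ((MonoidHom.ker M.ρ : Subgroup GQ) : Set GQ) := by
  obtain ⟨F, hF, h⟩ := h15f_exists_finite_le_ker M hsm
  have : F.fixingSubgroup ≤ MonoidHom.ker M.ρ := fun s hs => MonoidHom.mem_ker.mpr (h s hs)
  exact Subgroup.isOpen_mono this (IntermediateField.fixingSubgroup_isOpen F)

/-- **existence of levels** -/
theorem exists_isLevel (S : Finset Nat.Primes) (M : Rep.{0} k GQ) [Module.Finite k M]
    (hsm : ∀ m : M, ∃ F : IntermediateField ℚ Qb, FiniteDimensional ℚ F ∧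
      ∀ s ∈ F.fixingSubgroup, M.ρ s m = m)
    (hMur : ∀ q : Nat.Primes, q ∉ S → ∀ A : ValuationSubring Qb,
      A.LiesOverPrime (q : ℕ) → ∀ g ∈ A.inertiaSubgroupIn ℚ, M.ρ g = 1) :
    ∃ F : IntermediateField ℚ Qb, IsLevel S M F := by
  have hopen := h15f_isOpen_ker M hsm
  obtain ⟨h1, -⟩ := h15f_fixingSubgroup_fixedField_of_isOpen _ hopen
  refine ⟨IntermediateField.fixedField (MonoidHom.ker M.ρ), ?_, ?_, ?_⟩
  · exact h15f_isUnramifiedOutside_fixedField _ hopen
      (fun q hq A hA g hg => MonoidHom.mem_ker.mpr (hMur q hq A hA g hg))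
  · rw [h1]; infer_instance
  · intro s hs
    rw [h1] at hs
    exact MonoidHom.mem_ker.mp hs

theorem IsLevel.sup {S : Finset Nat.Primes} {M : Rep.{0} k GQ} {F F' : IntermediateField ℚ Qb}
    (hF : IsLevel S M F) (hF' : F'.IsUnramifiedOutside S) (hn : F'.fixingSubgroup.Normal) :
    IsLevel S M (F ⊔ F') := by
  refine ⟨hF.unram.sup hF', ?_, fun s hs => ?_⟩
  · rw [IntermediateField.fixingSubgroup_sup]
    haveI := hF.normal
    haveI := hn
    infer_instance
  · exact hF.triv s (IntermediateField.fixingSubgroup_antitone le_sup_left hs)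

theorem IsFinLevel.sup {M : Rep.{0} k GQ} {F F' : IntermediateField ℚ Qb}
    (hF : IsFinLevel M F) (hF' : FiniteDimensional ℚ F') (hn : F'.fixingSubgroup.Normal) :
    IsFinLevel M (F ⊔ F') := by
  haveI := hF.fin
  refine ⟨IntermediateField.finiteDimensional_sup F F', ?_, fun s hs => ?_⟩
  · rw [IntermediateField.fixingSubgroup_sup]
    haveI := hF.normal
    haveI := hn
    infer_instance
  · exact hF.triv s (IntermediateField.fixingSubgroup_antitone le_sup_left hs)

/-- the normal core of an open subgroup is open -/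
theorem h15f_isOpen_normalCore (F : IntermediateField ℚ Qb) [FiniteDimensional ℚ F] :
    IsOpen ((F.fixingSubgroup.normalCore : Subgroup GQ) : Set GQ) := by
  let F'' : IntermediateField ℚ Qb := IntermediateField.normalClosure ℚ F Qb
  haveI : FiniteDimensional ℚ F'' := normalClosure.is_finiteDimensional ℚ F Qb
  haveI : Normal ℚ F'' := normalClosure.normal ℚ F Qb
  have hle : F''.fixingSubgroup ≤ F.fixingSubgroup :=
    IntermediateField.fixingSubgroup_antitone (IntermediateField.le_normalClosure F)
  haveI : F''.fixingSubgroup.Normal := by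
    rw [InfiniteGalois.normal_iff_isGalois]
    exact ⟨⟩
  have hle' : F''.fixingSubgroup ≤ F.fixingSubgroup.normalCore :=
    Subgroup.normal_le_normalCore.mpr hle
  exact Subgroup.isOpen_mono hle' (IntermediateField.fixingSubgroup_isOpen F'')

/-- every finite extension unramified outside `S` lies in a normal one -/
theorem exists_normal_ge_of_isUnramifiedOutside {S : Finset Nat.Primes}
    {F : IntermediateField ℚ Qb} (hF : F.IsUnramifiedOutside S) :
    ∃ F' : IntermediateField ℚ Qb, F ≤ F' ∧ F'.IsUnramifiedOutside S ∧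
      F'.fixingSubgroup.Normal := by
  haveI := hF.1
  have hopen := h15f_isOpen_normalCore F
  obtain ⟨h1, -⟩ := h15f_fixingSubgroup_fixedField_of_isOpen _ hopen
  refine ⟨IntermediateField.fixedField F.fixingSubgroup.normalCore, ?_, ?_, ?_⟩
  · have h2 : IntermediateField.fixedField F.fixingSubgroup
        ≤ IntermediateField.fixedField F.fixingSubgroup.normalCore :=
      IntermediateField.fixedField_antitone (Subgroup.normalCore_le _)
    rwa [InfiniteGalois.fixedField_fixingSubgroup F] at h2
  · refine h15f_isUnramifiedOutside_fixedField _ hopen (fun q hq A hA g hg => ?_)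
    show ∀ τ : GQ, τ * g * τ⁻¹ ∈ F.fixingSubgroup
    intro τ
    exact h15f_inertia_le_conj hF q hq A hA g hg τ
  · rw [h1]; infer_instance

/-- every finite extension lies in a finite normal one -/
theorem exists_normal_ge_of_finiteDimensional
    (F : IntermediateField ℚ Qb) [FiniteDimensional ℚ F] :
    ∃ F' : IntermediateField ℚ Qb, F ≤ F' ∧ FiniteDimensional ℚ F' ∧
      F'.fixingSubgroup.Normal := by
  refine ⟨IntermediateField.normalClosure ℚ F Qb, IntermediateField.le_normalClosure F,
    normalClosure.is_finiteDimensional ℚ F Qb, ?_⟩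
  haveI : Normal ℚ (IntermediateField.normalClosure ℚ F Qb) := normalClosure.normal ℚ F Qb
  rw [InfiniteGalois.normal_iff_isGalois]
  exact ⟨⟩

/-- **cofinality of levels** -/
theorem exists_isLevel_ge {S : Finset Nat.Primes} {M : Rep.{0} k GQ}
    {F₀ : IntermediateField ℚ Qb} (hF₀ : IsLevel S M F₀)
    {F : IntermediateField ℚ Qb} (hF : F.IsUnramifiedOutside S) :
    ∃ F' : IntermediateField ℚ Qb, F₀ ≤ F' ∧ F ≤ F' ∧ IsLevel S M F' := by
  obtain ⟨F₁, h1, h2, h3⟩ := exists_normal_ge_of_isUnramifiedOutside hF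
  exact ⟨F₀ ⊔ F₁, le_sup_left, h1.trans le_sup_right, hF₀.sup h2 h3⟩

theorem exists_isFinLevel_ge {M : Rep.{0} k GQ}
    {F₀ : IntermediateField ℚ Qb} (hF₀ : IsFinLevel M F₀)
    (F : IntermediateField ℚ Qb) (hF : FiniteDimensional ℚ F) :
    ∃ F' : IntermediateField ℚ Qb, F₀ ≤ F' ∧ F ≤ F' ∧ IsFinLevel M F' := by
  obtain ⟨F₁, h1, h2, h3⟩ := exists_normal_ge_of_finiteDimensional F
  exact ⟨F₀ ⊔ F₁, le_sup_left, h1.trans le_sup_right, hF₀.sup h2 h3⟩

end H15F

end
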