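/-
W2-C (S55) block F, abstract core II (helper15): `descRep` and descent of cocycles/coboundaries.

Setting: `π : G →* Γ` surjective, `M : Rep k G`, `ker π` acts trivially on `M`.
* `H15F.descRep π hπ M htriv : Rep k Γ` (same underlying module), `descRep_ρ_π`.
* `mem_cocycles₁_desc`, `mem_cocycles₂_desc` : a cocycle of `G` that is right-`ker π`-invariant
  descends to a cocycle of `Γ`.
* `comp_mem_cocycles₁`, `comp_mem_cocycles₂` : inflation of cocycles.
* `d₁₂_comp`, `d₁₂_desc` : compatibility of the differential with inflation / descent.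
-/
import Mathlib
import Fermat.Agent.CFT2.F.Core_helper15

set_option autoImplicit false

noncomputable section

namespace H15F

open groupCohomology

variable {k G Γ : Type} [CommRing k] [Group G] [Group Γ]
  (π : G →* Γ) (hπ : Function.Surjective π) (M : Rep.{0} k G)
  (htriv : ∀ s ∈ π.ker, M.ρ s = 1)

/-- `M` as a representation of `Γ` -/
abbrev descRep : Rep.{0} k Γ := Rep.of (descRho π hπ M.ρ htriv)

/-- inflation of a 1-cochain -/
def infl₁ (f : Γ → descRep π hπ M htriv) : G → M := fun g => f (π g)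

/-- inflation of a 2-cochain -/
def infl₂ (f : Γ × Γ → descRep π hπ M htriv) : G × G → M := fun g => f (π g.1, π g.2)

/-- descent of a 1-cochain -/
def dsc₁ (f : G → M) : Γ → descRep π hπ M htriv := desc₁ π hπ f

/-- descent of a 2-cochain -/
def dsc₂ (f : G × G → M) : Γ × Γ → descRep π hπ M htriv := desc₂ π hπ f

theorem descRep_ρ_π (g : G) (m : M) :
    (descRep π hπ M htriv).ρ (π g) m = M.ρ g m := by
  show descRho π hπ M.ρ htriv (π g) m = M.ρ g m
  rw [descRho_π]

theorem descRep_ρ (γ : Γ) (m : M) :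
    (descRep π hπ M htriv).ρ γ m = M.ρ (lift π hπ γ) m := rfl

theorem infl₁_apply (f : Γ → descRep π hπ M htriv) (g : G) :
    infl₁ π hπ M htriv f g = f (π g) := rfl

theorem infl₂_apply (f : Γ × Γ → descRep π hπ M htriv) (g g' : G) :
    infl₂ π hπ M htriv f (g, g') = f (π g, π g') := rfl

theorem isRConst₁_infl₁ (f : Γ → descRep π hπ M htriv) :
    IsRConst₁ π.ker (infl₁ π hπ M htriv f) := isRConst₁_comp π f

theorem isRConst₂_infl₂ (f : Γ × Γ → descRep π hπ M htriv) :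
    IsRConst₂ π.ker (infl₂ π hπ M htriv f) := isRConst₂_comp π f

theorem infl₁_dsc₁ {f : G → M} (hf : IsRConst₁ π.ker f) :
    infl₁ π hπ M htriv (dsc₁ π hπ M htriv f) = f := by
  funext g
  exact desc₁_π π hπ hf g

theorem infl₂_dsc₂ {f : G × G → M} (hf : IsRConst₂ π.ker f) :
    infl₂ π hπ M htriv (dsc₂ π hπ M htriv f) = f := by
  funext ⟨g, g'⟩
  exact desc₂_π π hπ hf g g'

theorem dsc₁_infl₁ (f : Γ → descRep π hπ M htriv) :
    dsc₁ π hπ M htriv (infl₁ π hπ M htriv f) = f := desc₁_comp π hπ f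

theorem dsc₂_infl₂ (f : Γ × Γ → descRep π hπ M htriv) :
    dsc₂ π hπ M htriv (infl₂ π hπ M htriv f) = f := desc₂_comp π hπ f

theorem infl₁_injective : Function.Injective (infl₁ π hπ M htriv) := by
  intro f f' h
  rw [← dsc₁_infl₁ π hπ M htriv f, ← dsc₁_infl₁ π hπ M htriv f', h]

theorem infl₂_injective : Function.Injective (infl₂ π hπ M htriv) := by
  intro f f' h
  rw [← dsc₂_infl₂ π hπ M htriv f, ← dsc₂_infl₂ π hπ M htriv f', h]

/-- inflation commutes with `d₀₁` -/
theorem d₀₁_infl (m : M) :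
    infl₁ π hπ M htriv ((d₀₁ (descRep π hπ M htriv)).hom m) = (d₀₁ M).hom m := by
  funext g
  simp only [infl₁_apply, d₀₁_hom_apply]
  rw [descRep_ρ_π]

/-- inflation commutes with `d₁₂` -/
theorem d₁₂_infl (f : Γ → descRep π hπ M htriv) :
    infl₂ π hπ M htriv ((d₁₂ (descRep π hπ M htriv)).hom f)
      = (d₁₂ M).hom (infl₁ π hπ M htriv f) := by
  funext ⟨g, g'⟩
  simp only [infl₂_apply, d₁₂_hom_apply, infl₁_apply, map_mul]
  rw [descRep_ρ_π]

/-- inflation of cocycles -/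
theorem infl₁_mem_cocycles₁ {f : Γ → descRep π hπ M htriv}
    (hf : f ∈ cocycles₁ (descRep π hπ M htriv)) : infl₁ π hπ M htriv f ∈ cocycles₁ M := by
  rw [mem_cocycles₁_iff] at hf ⊢
  intro g h
  simp only [infl₁_apply, map_mul]
  rw [hf, descRep_ρ_π]

theorem infl₂_mem_cocycles₂ {f : Γ × Γ → descRep π hπ M htriv}
    (hf : f ∈ cocycles₂ (descRep π hπ M htriv)) : infl₂ π hπ M htriv f ∈ cocycles₂ M := by
  rw [mem_cocycles₂_iff] at hf ⊢
  intro g h j
  simp only [infl₂_apply, map_mul]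
  rw [hf, descRep_ρ_π]

/-- a cochain on `Γ` is a cocycle iff its inflation is -/
theorem mem_cocycles₁_iff_infl (f : Γ → descRep π hπ M htriv) :
    f ∈ cocycles₁ (descRep π hπ M htriv) ↔ infl₁ π hπ M htriv f ∈ cocycles₁ M := by
  refine ⟨infl₁_mem_cocycles₁ π hπ M htriv, fun hf => ?_⟩
  rw [mem_cocycles₁_iff] at hf ⊢
  intro γ γ'
  obtain ⟨g, rfl⟩ := hπ γ
  obtain ⟨g', rfl⟩ := hπ γ'
  have := hf g g'
  simp only [infl₁_apply, map_mul] at this
  rw [this, descRep_ρ_π]

theorem mem_cocycles₂_iff_infl (f : Γ × Γ → descRep π hπ M htriv) :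
    f ∈ cocycles₂ (descRep π hπ M htriv) ↔ infl₂ π hπ M htriv f ∈ cocycles₂ M := by
  refine ⟨infl₂_mem_cocycles₂ π hπ M htriv, fun hf => ?_⟩
  rw [mem_cocycles₂_iff] at hf ⊢
  intro γ γ' γ''
  obtain ⟨g, rfl⟩ := hπ γ
  obtain ⟨g', rfl⟩ := hπ γ'
  obtain ⟨g'', rfl⟩ := hπ γ''
  have := hf g g' g''
  simp only [infl₂_apply, map_mul] at this
  rw [this, descRep_ρ_π]

/-- descent of cocycles -/
theorem dsc₁_mem_cocycles₁ {f : G → M} (hf : f ∈ cocycles₁ M) (hc : IsRConst₁ π.ker f) :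
    dsc₁ π hπ M htriv f ∈ cocycles₁ (descRep π hπ M htriv) := by
  rw [mem_cocycles₁_iff_infl, infl₁_dsc₁ π hπ M htriv hc]
  exact hf

theorem dsc₂_mem_cocycles₂ {f : G × G → M} (hf : f ∈ cocycles₂ M) (hc : IsRConst₂ π.ker f) :
    dsc₂ π hπ M htriv f ∈ cocycles₂ (descRep π hπ M htriv) := by
  rw [mem_cocycles₂_iff_infl, infl₂_dsc₂ π hπ M htriv hc]
  exact hf

/-- descent commutes with `d₁₂` on right-invariant cochains -/
theorem d₁₂_dsc {b : G → M} (hb : IsRConst₁ π.ker b) :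
    (d₁₂ (descRep π hπ M htriv)).hom (dsc₁ π hπ M htriv b)
      = dsc₂ π hπ M htriv ((d₁₂ M).hom b) := by
  apply infl₂_injective π hπ M htriv
  rw [d₁₂_infl, infl₁_dsc₁ π hπ M htriv hb, infl₂_dsc₂]
  intro g g' s s' hs hs'
  simp only [d₁₂_hom_apply]
  have h1 : g * s * (g' * s') = g * g' * (g'⁻¹ * s * g' * s') := by group
  have h2 : g'⁻¹ * s * g' * s' ∈ π.ker := by
    refine mul_mem ?_ hs'
    have := (inferInstance : π.ker.Normal).conj_mem s hs g'⁻¹
    simpa [mul_assoc] using this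
  rw [hb g' s' hs', h1, hb _ _ h2, hb g s hs, map_mul, htriv s hs]
  rfl

include htriv in
/-- the differential of a right-invariant cochain is right-invariant -/
theorem isRConst₂_d₁₂ {b : G → M} (hb : IsRConst₁ π.ker b) :
    IsRConst₂ π.ker ((d₁₂ M).hom b) := by
  intro g g' s s' hs hs'
  simp only [d₁₂_hom_apply]
  have h1 : g * s * (g' * s') = g * g' * (g'⁻¹ * s * g' * s') := by group
  have h2 : g'⁻¹ * s * g' * s' ∈ π.ker := by
    refine mul_mem ?_ hs'
    have := (inferInstance : π.ker.Normal).conj_mem s hs g'⁻¹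
    simpa [mul_assoc] using this
  rw [hb g' s' hs', h1, hb _ _ h2, hb g s hs, map_mul, htriv s hs]
  rfl

end H15F

end
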