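/-
W2-C (S55) block F (helper15): unfolding of `continuousH1S`, of the localisation maps on `H¹`
and of `sha₁` in terms of cocycles.
-/
import Mathlib
import Fermat.Prelude.Def_GroupCohomology_ContinuousUnramified
import Fermat.Agent.CFT2.F.CoreRep_helper15
import Fermat.Agent.CFT2.F.Levels_helper15

set_option autoImplicit false
set_option linter.style.haveILetI false

noncomputable section

namespace H15F

open groupCohomology CategoryTheory

local notation "Qb" => AlgebraicClosure ℚ
local notation "GQ" => (AlgebraicClosure ℚ ≃ₐ[ℚ] AlgebraicClosure ℚ)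

variable {K : Type} [Field K] (S : Finset Nat.Primes) (A : Rep.{0} K GQ)

theorem h15f_mem_continuousH1S_iff {F₀ : IntermediateField ℚ Qb} (hF₀ : IsLevel S A F₀)
    (x : H1 A) :
    x ∈ continuousH1S S A ↔
      ∃ F : IntermediateField ℚ Qb, F₀ ≤ F ∧ IsLevel S A F ∧
        ∃ c : cocycles₁ A, IsRConst₁ F.fixingSubgroup (c : GQ → A) ∧ (H1π A).hom c = x := by
  rw [mem_continuousH1S_iff]
  constructor
  · rintro ⟨c, ⟨F', hF', hc⟩, rfl⟩
    obtain ⟨F, h1, h2, h3⟩ := exists_isLevel_ge hF₀ hF'
    exact ⟨F, h1, h3, c, fun g s hs => hc g s (IntermediateField.fixingSubgroup_antitone h2 hs),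
      rfl⟩
  · rintro ⟨F, -, hF, c, hc, rfl⟩
    exact ⟨c, ⟨F, hF.unram, hc⟩, rfl⟩

variable {H : Type} [Group H] (r : H →* GQ)

/-- the localisation of the class of a cocycle vanishes iff the restricted cocycle is a
coboundary -/
theorem h15f_map_H1π_eq_zero_iff (c : cocycles₁ A) :
    (map r (𝟙 (Rep.res r A)) 1).hom ((H1π A).hom c) = 0 ↔
      ∃ m : A, ∀ h : H, (c : GQ → A) (r h) = A.ρ (r h) m - m := by
  have h1 : (map r (𝟙 (Rep.res r A)) 1).hom ((H1π A).hom c)
      = (H1π (Rep.res r A)).hom ((mapCocycles₁ r (𝟙 (Rep.res r A))).hom c) := by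
    have := H1π_comp_map_apply (A := A) (B := Rep.res r A) r (𝟙 (Rep.res r A)) c
    exact this
  rw [h1]
  have h2 := H1π_eq_zero_iff (A := Rep.res r A) ((mapCocycles₁ r (𝟙 (Rep.res r A))).hom c)
  rw [h2]
  have key : ∀ h : H, ((mapCocycles₁ r (𝟙 (Rep.res r A))).hom c) h = (c : GQ → A) (r h) :=
    fun h => rfl
  constructor
  · rintro ⟨m, hm⟩
    refine ⟨m, fun h => ?_⟩
    have := congrFun hm h
    simp only [d₀₁_hom_apply] at this
    rw [← key h, ← this]
    rfl
  · rintro ⟨m, hm⟩
    refine ⟨m, ?_⟩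
    funext h
    simp only [d₀₁_hom_apply]
    rw [key h, hm h]
    rfl

/-- membership in `sha₁` -/
theorem h15f_mem_sha₁_iff (x : H1 A) :
    x ∈ sha₁ S A ↔ x ∈ continuousH1S S A ∧
      ∀ v : ExtCitation.extArithIndex S,
        (map (ExtCitation.extArithLoc S v)
          (𝟙 (Rep.res (ExtCitation.extArithLoc S v) A)) 1).hom x = 0 := by
  unfold sha₁
  rw [Submodule.mem_inf, LinearMap.mem_ker]
  refine and_congr Iff.rfl ?_
  constructor
  · intro h v
    have := congrFun h v
    simpa using this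
  · intro h
    funext v
    simpa using h v

end H15F

end
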