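/-
W2-C (S55) block F (helper15): unfolding of the prelude's continuous `H²` (global, `S`-ramified;
local) in terms of cochains that are right-invariant under `Gal(ℚ̄/F)`, `F` a level.
-/
import Mathlib
import Fermat.Prelude.Def_GroupCohomology_ContinuousUnramified
import Fermat.Agent.CFT2.F.CoreRep_helper15
import Fermat.Agent.CFT2.F.Levels_helper15

set_option autoImplicit false
set_option linter.style.haveILetI false

noncomputable section

namespace H15F

open groupCohomology

local notation "Qb" => AlgebraicClosure ℚ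
local notation "GQ" => (AlgebraicClosure ℚ ≃ₐ[ℚ] AlgebraicClosure ℚ)

variable {k : Type} [CommRing k] (S : Finset Nat.Primes) (M : Rep.{0} k GQ)

/-! ### global `H²` -/

/-- every class of `continuousH2S` is represented by a cocycle that is right-invariant under
`Gal(ℚ̄/F)` for a level `F` (which can be taken above any given level) -/
theorem h15f_exists_rep₂ {F₀ : IntermediateField ℚ Qb} (hF₀ : IsLevel S M F₀)
    (x : continuousH2S S M) :
    ∃ F : IntermediateField ℚ Qb, F₀ ≤ F ∧ IsLevel S M F ∧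
      ∃ c : ↥(levelCocyclesS₂ S M), IsRConst₂ F.fixingSubgroup (c : GQ × GQ → M) ∧
        continuousH2Sπ S M c = x := by
  obtain ⟨c, rfl⟩ := Submodule.mkQ_surjective _ x
  obtain ⟨F', hF', hc⟩ := c.2.2
  obtain ⟨F, h1, h2, h3⟩ := exists_isLevel_ge hF₀ hF'
  refine ⟨F, h1, h3, c, ?_, rfl⟩
  intro g g' s s' hs hs'
  exact hc g g' s s' (IntermediateField.fixingSubgroup_antitone h2 hs)
    (IntermediateField.fixingSubgroup_antitone h2 hs')

/-- a class of `continuousH2S` vanishes iff a representing cocycle is the coboundary of a cochain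
that is right-invariant under `Gal(ℚ̄/F)` for a level `F` -/
theorem h15f_π_eq_zero_iff {F₀ : IntermediateField ℚ Qb} (hF₀ : IsLevel S M F₀)
    (c : ↥(levelCocyclesS₂ S M)) :
    continuousH2Sπ S M c = 0 ↔
      ∃ F : IntermediateField ℚ Qb, F₀ ≤ F ∧ IsLevel S M F ∧
        ∃ b : GQ → M, IsRConst₁ F.fixingSubgroup b ∧ (d₁₂ M).hom b = (c : GQ × GQ → M) := by
  rw [continuousH2Sπ_eq_zero_iff, mem_levelCoboundariesS₂_iff]
  constructor
  · rintro ⟨b, ⟨F', hF', hb⟩, hbc⟩
    obtain ⟨F, h1, h2, h3⟩ := exists_isLevel_ge hF₀ hF'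
    exact ⟨F, h1, h3, b, fun g s hs => hb g s (IntermediateField.fixingSubgroup_antitone h2 hs),
      hbc⟩
  · rintro ⟨F, -, hF, b, hb, hbc⟩
    exact ⟨b, ⟨F, hF.unram, hb⟩, hbc⟩

/-- a cocycle that is right-invariant under `Gal(ℚ̄/F)`, `F` unramified outside `S`, is a level
cocycle -/
theorem h15f_mem_levelCocyclesS₂ {F : IntermediateField ℚ Qb} (hF : F.IsUnramifiedOutside S)
    {c : GQ × GQ → M} (hc : c ∈ cocycles₂ M) (hinv : IsRConst₂ F.fixingSubgroup c) :
    c ∈ levelCocyclesS₂ S M :=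
  ⟨hc, ⟨F, hF, hinv⟩⟩

/-! ### local `H²` -/

variable {H : Type} [Group H] (r : H →* GQ)

/-- restriction of a cochain along `r` -/
def h15f_res₂ (c : GQ × GQ → M) : H × H → Rep.res r M := fun h => c (r h.1, r h.2)

/-- restriction of a cochain along `r` -/
def h15f_res₁ (c : GQ → M) : H → Rep.res r M := fun h => c (r h)

theorem h15f_res₂_mem {c : GQ × GQ → M} (hc : c ∈ levelCocyclesS₂ S M) :
    h15f_res₂ M r c ∈ levelCocycles₂ r (Rep.res r M) := by
  have h1 := levelCocyclesS₂_le_levelCocycles₂ S M hc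
  exact cochainsPullPush₂_mem_levelCocycles₂ (rH := MonoidHom.id _) (rG := r)
    (A := M) (B := Rep.res r M) r (fun _ => rfl)
    (LinearMap.id : M →ₗ[k] Rep.res r M) (fun _ _ => rfl) h1

theorem h15f_locRes₂S_π (c : ↥(levelCocyclesS₂ S M)) :
    locRes₂S S M r (continuousH2Sπ S M c)
      = continuousH2π r (Rep.res r M) ⟨h15f_res₂ M r c, h15f_res₂_mem S M r c.2⟩ := rfl

/-- vanishing of the localisation of a class, in terms of cochains -/
theorem h15f_locRes₂S_eq_zero_iff {F₀ : IntermediateField ℚ Qb} (hF₀ : IsFinLevel M F₀)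
    (c : ↥(levelCocyclesS₂ S M)) :
    locRes₂S S M r (continuousH2Sπ S M c) = 0 ↔
      ∃ F : IntermediateField ℚ Qb, F₀ ≤ F ∧ IsFinLevel M F ∧
        ∃ b : H → Rep.res r M, IsRConst₁ (F.fixingSubgroup.comap r) b ∧
          (d₁₂ (Rep.res r M)).hom b = h15f_res₂ M r c := by
  rw [h15f_locRes₂S_π, continuousH2π_eq_zero_iff, mem_levelCoboundaries₂_iff]
  constructor
  · rintro ⟨b, ⟨F', hF', hb⟩, hbc⟩
    obtain ⟨F, h1, h2, h3⟩ := exists_isFinLevel_ge hF₀ F' hF'
    refine ⟨F, h1, h3, b, fun g s hs => hb g s ?_, hbc⟩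
    exact IntermediateField.fixingSubgroup_antitone h2 hs
  · rintro ⟨F, -, hF, b, hb, hbc⟩
    exact ⟨b, ⟨F, hF.fin, fun g s hs => hb g s hs⟩, hbc⟩

/-- membership in `sha₂` -/
theorem h15f_mem_sha₂_iff (x : continuousH2S S M) :
    x ∈ sha₂ S M ↔ ∀ v : ExtCitation.extArithIndex S,
      locRes₂S S M (ExtCitation.extArithLoc S v) x = 0 := by
  unfold sha₂
  rw [LinearMap.mem_ker]
  constructor
  · intro h v
    have := congrFun h v
    simpa using this
  · intro h
    funext v
    simpa using h v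

end H15F

end
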