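/-
W2-C (S55) block F (helper15): the archimedean local conditions in `sha₁`, `sha₂` are vacuous when
`2` is invertible in the coefficient ring (the archimedean decomposition group has order `2`).

* `h15f_arch_H1_eq_zero` : the localisation at `∞` of any class of `H¹` vanishes;
* `h15f_arch_locRes₂S_eq_zero` : the localisation at `∞` of any class of `continuousH2S` vanishes;
* `h15f_mem_sha₁_iff_primes`, `h15f_mem_sha₂_iff_primes` : membership in `sha₁`, `sha₂` only has
  to be tested at the primes of `S`.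
-/
import Mathlib
import Fermat.Prelude.Def_GroupCohomology_ContinuousUnramified
import Fermat.Agent.CFT2.F.Unfold_helper15
import Fermat.Agent.CFT2.F.UnfoldH1_helper15

set_option autoImplicit false
set_option linter.style.haveILetI false

noncomputable section

namespace H15F

open groupCohomology CategoryTheory ExtCitation

local notation "Qb" => AlgebraicClosure ℚ
local notation "GQ" => (AlgebraicClosure ℚ ≃ₐ[ℚ] AlgebraicClosure ℚ)

/-- the elements of the archimedean decomposition group are `1` and complex conjugation -/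
theorem h15f_arch_cases (h : archimedeanDecomposition) :
    archimedeanLoc h = 1 ∨ archimedeanLoc h = complexConjugation := by
  obtain ⟨g, hg⟩ := h
  obtain ⟨n, rfl⟩ := Subgroup.mem_zpowers_iff.1 hg
  show complexConjugation ^ n = 1 ∨ complexConjugation ^ n = complexConjugation
  rcases Int.even_or_odd' n with ⟨m, rfl | rfl⟩
  · left
    rw [zpow_mul, zpow_ofNat, complexConjugation_sq, one_zpow]
  · right
    rw [zpow_add, zpow_mul, zpow_ofNat, complexConjugation_sq, one_zpow, one_mul, zpow_one]

section H1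

variable {K : Type} [Field K] (A : Rep.{0} K GQ)

/-- a `1`-cocycle restricted to the archimedean decomposition group is a coboundary -/
theorem h15f_arch_cob₁ (h2 : (2 : K) ≠ 0) (c : cocycles₁ A) :
    ∃ m : A, ∀ h : archimedeanDecomposition,
      (c : GQ → A) (archimedeanLoc h) = A.ρ (archimedeanLoc h) m - m := by
  set σ : GQ := complexConjugation with hσ
  have hc := (mem_cocycles₁_iff (c : GQ → A)).1 c.2
  have h1 : (c : GQ → A) 1 = 0 := cocycles₁_map_one c
  have hσσ : A.ρ σ ((c : GQ → A) σ) = - (c : GQ → A) σ := by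
    have := hc σ σ
    rw [complexConjugation_mul_self, h1] at this
    exact (neg_eq_of_add_eq_zero_left this.symm).symm
  refine ⟨-((2 : K)⁻¹ • (c : GQ → A) σ), fun h => ?_⟩
  rcases h15f_arch_cases h with h' | h'
  · rw [h', h1, map_one]
    simp
  · rw [h', map_neg, map_smul, hσσ, smul_neg, neg_neg, sub_neg_eq_add, ← add_smul]
    have : (2 : K)⁻¹ + (2 : K)⁻¹ = 1 := by field_simp; norm_num
    rw [this, one_smul]

/-- the localisation at `∞` of any class of `H¹` vanishes -/
theorem h15f_arch_H1_eq_zero (h2 : (2 : K) ≠ 0) (x : H1 A) :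
    (map archimedeanLoc (𝟙 (Rep.res archimedeanLoc A)) 1).hom x = 0 := by
  induction x using H1_induction_on with | @h c =>
  exact (h15f_map_H1π_eq_zero_iff A archimedeanLoc c).2 (h15f_arch_cob₁ A h2 c)

/-- membership in `sha₁` only has to be tested at the primes of `S` -/
theorem h15f_mem_sha₁_iff_primes (S : Finset Nat.Primes) (h2 : (2 : K) ≠ 0) (x : H1 A) :
    x ∈ sha₁ S A ↔ x ∈ continuousH1S S A ∧
      ∀ q : ↥S, (map (primeLocalToGlobal q.1) (𝟙 (Rep.res (primeLocalToGlobal q.1) A)) 1).hom x
        = 0 := by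
  rw [h15f_mem_sha₁_iff]
  refine and_congr Iff.rfl ⟨fun h q => h (Sum.inr q), fun h v => ?_⟩
  rcases v with v | q
  · exact h15f_arch_H1_eq_zero A h2 x
  · exact h q

end H1

section H2

variable {k : Type} [Field k] (S : Finset Nat.Primes) (M : Rep.{0} k GQ)

/-- the localisation at `∞` of any class of `continuousH2S` vanishes -/
theorem h15f_arch_locRes₂S_eq_zero (h2 : (2 : k) ≠ 0) {F₀ : IntermediateField ℚ Qb}
    (hF₀ : IsFinLevel M F₀) (x : continuousH2S S M) :
    locRes₂S S M archimedeanLoc x = 0 := by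
  obtain ⟨c, rfl⟩ := Submodule.mkQ_surjective _ x
  rw [h15f_locRes₂S_eq_zero_iff S M archimedeanLoc hF₀]
  obtain ⟨F', hF', hcF'⟩ := c.2.2
  obtain ⟨F, h1, h1', hF⟩ := exists_isFinLevel_ge hF₀ F' hF'.1
  set σ : GQ := complexConjugation with hσ
  have hcc := (mem_cocycles₂_iff (c : GQ × GQ → M)).1 c.2.1
  -- the averaged cochain
  refine ⟨F, h1, hF, fun h => (2 : k)⁻¹ • ((c : GQ × GQ → M) (archimedeanLoc h, 1)
    + (c : GQ × GQ → M) (archimedeanLoc h, σ)), ?_, ?_⟩
  · intro g s hs
    have hs' : archimedeanLoc s ∈ F'.fixingSubgroup :=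
      IntermediateField.fixingSubgroup_antitone h1' hs
    show (2 : k)⁻¹ • ((c : GQ × GQ → M) (archimedeanLoc (g * s), 1)
        + (c : GQ × GQ → M) (archimedeanLoc (g * s), σ))
      = (2 : k)⁻¹ • ((c : GQ × GQ → M) (archimedeanLoc g, 1)
        + (c : GQ × GQ → M) (archimedeanLoc g, σ))
    rw [map_mul]
    have e1 := hcF' (archimedeanLoc g) 1 (archimedeanLoc s) 1 hs' (Subgroup.one_mem _)
    have e2 := hcF' (archimedeanLoc g) σ (archimedeanLoc s) 1 hs' (Subgroup.one_mem _)
    rw [mul_one] at e1 e2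
    rw [e1, e2]
  · funext ⟨x, y⟩
    simp only [d₁₂_hom_apply]
    show M.ρ (archimedeanLoc x) ((2 : k)⁻¹ • ((c : GQ × GQ → M) (archimedeanLoc y, 1)
        + (c : GQ × GQ → M) (archimedeanLoc y, σ)))
      - (2 : k)⁻¹ • ((c : GQ × GQ → M) (archimedeanLoc (x * y), 1)
        + (c : GQ × GQ → M) (archimedeanLoc (x * y), σ))
      + (2 : k)⁻¹ • ((c : GQ × GQ → M) (archimedeanLoc x, 1)
        + (c : GQ × GQ → M) (archimedeanLoc x, σ))
      = (c : GQ × GQ → M) (archimedeanLoc x, archimedeanLoc y)
    rw [map_mul]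
    set a : GQ := archimedeanLoc x
    set b : GQ := archimedeanLoc y
    -- cocycle identities with third argument `1` and `σ`
    have k1 := hcc a b 1
    have k2 := hcc a b σ
    rw [mul_one] at k1
    -- `c (a, b) + c (a, b σ) = c (a, 1) + c (a, σ)`
    have k3 : (c : GQ × GQ → M) (a, b) + (c : GQ × GQ → M) (a, b * σ)
        = (c : GQ × GQ → M) (a, 1) + (c : GQ × GQ → M) (a, σ) := by
      rcases h15f_arch_cases y with hb | hb
      · have : b = 1 := hb
        rw [this, one_mul]
      · have : b = σ := hb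
        rw [this, complexConjugation_mul_self, add_comm]
    -- from the cocycle identities
    have k4 : M.ρ a ((c : GQ × GQ → M) (b, 1) + (c : GQ × GQ → M) (b, σ))
        - ((c : GQ × GQ → M) (a * b, 1) + (c : GQ × GQ → M) (a * b, σ))
        + ((c : GQ × GQ → M) (a, 1) + (c : GQ × GQ → M) (a, σ))
        = (2 : k) • (c : GQ × GQ → M) (a, b) := by
      rw [← k3, map_add, two_smul]
      have e1 : M.ρ a ((c : GQ × GQ → M) (b, 1)) = (c : GQ × GQ → M) (a * b, 1)
          + (c : GQ × GQ → M) (a, b) - (c : GQ × GQ → M) (a, b) := by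
        have := k1
        rw [add_sub_cancel_right]
        have h' : (c : GQ × GQ → M) (a * b, 1) + (c : GQ × GQ → M) (a, b)
            = M.ρ a ((c : GQ × GQ → M) (b, 1)) + (c : GQ × GQ → M) (a, b) := this
        exact (add_right_cancel h').symm
      have e2 : M.ρ a ((c : GQ × GQ → M) (b, σ)) = (c : GQ × GQ → M) (a * b, σ)
          + (c : GQ × GQ → M) (a, b) - (c : GQ × GQ → M) (a, b * σ) := by
        have h' : (c : GQ × GQ → M) (a * b, σ) + (c : GQ × GQ → M) (a, b)
            = M.ρ a ((c : GQ × GQ → M) (b, σ)) + (c : GQ × GQ → M) (a, b * σ) := k2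
        rw [h']
        abel
      rw [e1, e2]
      abel
    rw [map_smul, ← smul_sub, ← smul_add, k4, smul_smul, inv_mul_cancel₀ h2, one_smul]

/-- membership in `sha₂` only has to be tested at the primes of `S` -/
theorem h15f_mem_sha₂_iff_primes (h2 : (2 : k) ≠ 0) {F₀ : IntermediateField ℚ Qb}
    (hF₀ : IsFinLevel M F₀) (x : continuousH2S S M) :
    x ∈ sha₂ S M ↔ ∀ q : ↥S, locRes₂S S M (primeLocalToGlobal q.1) x = 0 := by
  rw [h15f_mem_sha₂_iff]
  refine ⟨fun h q => h (Sum.inr q), fun h v => ?_⟩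
  rcases v with v | q
  · exact h15f_arch_locRes₂S_eq_zero S M h2 hF₀ x
  · exact h q

end H2

end H15F

end
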