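/-
W2-C (S55) block F (helper15): two finite-dimensional spaces of the same dimension carry a perfect
pairing.  (The conclusion of S55 only asks for the existence of a non-degenerate pairing.)
-/
import Mathlib

set_option autoImplicit false

namespace H15F

open Module

/-- two finite-dimensional spaces of the same dimension carry a perfect pairing -/
theorem h15f_exists_pairing {K V W : Type*} [Field K] [AddCommGroup V] [Module K V]
    [AddCommGroup W] [Module K W] [FiniteDimensional K V] [FiniteDimensional K W]
    (h : finrank K V = finrank K W) :
    ∃ B : V →ₗ[K] W →ₗ[K] K,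
      (∀ y, (∀ x, B y x = 0) → y = 0) ∧ (∀ x, (∀ y, B y x = 0) → x = 0) := by
  classical
  let e : V ≃ₗ[K] W := LinearEquiv.ofFinrankEq V W h
  let b := Module.finBasis K W
  refine ⟨b.toDual ∘ₗ e.toLinearMap, ?_, ?_⟩
  · intro y hy
    have h1 : b.toDual (e y) = 0 := LinearMap.ext fun x => by simpa using hy x
    have h2 : e y = 0 := by
      have := b.toDual_injective (a₁ := e y) (a₂ := 0) (by simpa using h1)
      exact this
    exact e.map_eq_zero_iff.mp h2
  · intro x hx
    apply b.ext_elem
    intro i
    have := hx (e.symm (b i))
    simp only [LinearMap.coe_comp, LinearEquiv.coe_coe, Function.comp_apply,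
      LinearEquiv.apply_symm_apply, Basis.toDual_apply_right] at this
    simpa using this

end H15F
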