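/-
W2-C (S55) block F (helper15): the Tate dual `N = M.dualTwist (cycloChar p)`.

* `h15f_cycloChar_eq_one_of_fix` : `σ ζ = ζ` (`ζ` a primitive `p`-th root of unity) ⟹ `χ σ = 1`;
* `h15f_inertia_fix_zeta` : inertia at `q ≠ p` fixes the `p`-th roots of unity;
* `h15f_cycloChar_inertia` : `χ` is trivial on inertia at `q ≠ p`;
* `dualTwist_smooth`, `dualTwist_unram` : `N` satisfies the hypotheses of S55 when `M` does;
* `exists_isLevel_both` : a common level for `M` and `N` on which `χ` is trivial.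
-/
import Mathlib
import Fermat.Prelude.Def_GroupCohomology_ContinuousUnramified
import Fermat.Agent.CFT2.F.Levels_helper15

set_option autoImplicit false
set_option linter.style.haveILetI false

noncomputable section

namespace H15F

open groupCohomology ExtCitation
open Fermat.Agent.H22BR Fermat.Agent.H9

local notation "Qb" => AlgebraicClosure ℚ
local notation "GQ" => (AlgebraicClosure ℚ ≃ₐ[ℚ] AlgebraicClosure ℚ)

variable (p : ℕ) [Fact p.Prime]

/-- `σ ζ = ζ ^ χ(σ)` for every `p`-th root of unity `ζ` -/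
theorem h15f_cycloSpec (σ : GQ) (ζ : Qb) (hζ : ζ ^ p = 1) : σ ζ = ζ ^ (cycloExp p σ) := by
  haveI : NeZero p := ⟨(Fact.out : p.Prime).ne_zero⟩
  have hp0 : p ≠ 0 := (Fact.out : p.Prime).ne_zero
  have ht : Units.ofPowEqOne ζ p hζ hp0 ∈ rootsOfUnity p (AlgebraicClosure ℚ) := by
    rw [mem_rootsOfUnity]
    apply Units.ext
    rw [Units.val_pow_eq_pow_val, Units.val_ofPowEqOne, hζ, Units.val_one]
  have h := modularCyclotomicCharacter.spec (AlgebraicClosure ℚ) (card_rootsOfUnity_eq_self p)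
    (σ : AlgebraicClosure ℚ ≃+* AlgebraicClosure ℚ) ht
  simpa [cycloExp] using h

theorem h15f_cycloExp_lt (σ : GQ) : cycloExp p σ < p := by
  haveI : NeZero p := ⟨(Fact.out : p.Prime).ne_zero⟩
  exact ZMod.val_lt _

/-- an automorphism fixing a primitive `p`-th root of unity has trivial cyclotomic character -/
theorem h15f_cycloChar_eq_one_of_fix {ζ : Qb} (hζ : IsPrimitiveRoot ζ p) {σ : GQ}
    (h : σ ζ = ζ) : cycloChar p σ = 1 := by
  haveI : NeZero p := ⟨(Fact.out : p.Prime).ne_zero⟩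
  haveI : Fact (1 < p) := ⟨(Fact.out : p.Prime).one_lt⟩
  have h1 := h15f_cycloSpec p σ ζ hζ.pow_eq_one
  rw [h] at h1
  have h2 : ζ ^ (cycloExp p σ) = ζ ^ 1 := by rw [← h1, pow_one]
  have h3 : cycloExp p σ = 1 :=
    hζ.pow_inj (h15f_cycloExp_lt p σ) (Fact.out : p.Prime).one_lt h2
  apply Units.ext
  apply ZMod.val_injective
  rw [Units.val_one, ZMod.val_one]
  exact h3

theorem h15f_exists_primitiveRoot : ∃ ζ : Qb, IsPrimitiveRoot ζ p := by
  haveI : NeZero p := ⟨(Fact.out : p.Prime).ne_zero⟩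
  exact HasEnoughRootsOfUnity.exists_primitiveRoot (AlgebraicClosure ℚ) p

theorem h15f_isIntegral_of_pow_eq_one {x : Qb} {n : ℕ} (hn : n ≠ 0) (hx : x ^ n = 1) :
    IsIntegral ℤ x := by
  refine ⟨Polynomial.X ^ n - 1, Polynomial.monic_X_pow_sub_C 1 hn, ?_⟩
  simp [hx]

/-- inertia at `q ≠ p` fixes the `p`-th roots of unity -/
theorem h15f_inertia_fix_zeta {q : ℕ} (hq : q.Prime) (hqp : q ≠ p)
    (A : ValuationSubring Qb) (hA : A.LiesOverPrime q) {σ : GQ}
    (hσ : σ ∈ A.inertiaSubgroupIn ℚ) {ζ : Qb} (hζ : ζ ^ p = 1) : σ ζ = ζ := by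
  have hp : p.Prime := Fact.out
  by_contra hne
  have hζint : IsIntegral ℤ ζ := h15f_isIntegral_of_pow_eq_one hp.ne_zero hζ
  have hζ0 : ζ ≠ 0 := by
    intro h0
    rw [h0, zero_pow hp.ne_zero] at hζ
    exact zero_ne_one hζ
  set v := A.valuation with hv
  have hint_le : ∀ x : Qb, IsIntegral ℤ x → v x ≤ 1 := fun x hx =>
    (A.valuation_le_one_iff x).2 (h9_mem_of_isIntegral A hx)
  -- `η = σ ζ / ζ`
  set η : Qb := σ ζ * ζ⁻¹ with hη
  have hσζ : (σ ζ) ^ p = 1 := by rw [← map_pow, hζ, map_one]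
  have hηp : η ^ p = 1 := by rw [hη, mul_pow, inv_pow, hσζ, hζ, inv_one, mul_one]
  have hη1 : η ≠ 1 := by
    intro h
    apply hne
    have : σ ζ = η * ζ := by rw [hη, mul_assoc, inv_mul_cancel₀ hζ0, mul_one]
    rw [this, h, one_mul]
  have hηint : IsIntegral ℤ η := h15f_isIntegral_of_pow_eq_one hp.ne_zero hηp
  have hζinv : IsIntegral ℤ ζ⁻¹ := by
    apply h15f_isIntegral_of_pow_eq_one hp.ne_zero (n := p)
    rw [inv_pow, hζ, inv_one]
  -- `v (η - 1) < 1`
  have h1 : v (σ ζ - ζ) < 1 :=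
    (A.mem_nonunits_iff).1 ((h22_mem_inertia_iff A hq hA σ).1 hσ ζ hζint)
  have h2 : v (η - 1) < 1 := by
    have : η - 1 = (σ ζ - ζ) * ζ⁻¹ := by
      rw [hη, sub_mul, mul_inv_cancel₀ hζ0]
    rw [this, map_mul]
    calc v (σ ζ - ζ) * v ζ⁻¹ ≤ v (σ ζ - ζ) * 1 := mul_le_mul_right (hint_le _ hζinv) _
      _ = v (σ ζ - ζ) := mul_one _
      _ < 1 := h1
  -- `v (1 - η ^ i) < 1`
  have h3 : ∀ i : ℕ, v (1 - η ^ i) < 1 := by
    intro i
    rw [Valuation.map_sub_swap, ← geom_sum_mul, map_mul]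
    have h4 : v (∑ j ∈ Finset.range i, η ^ j) ≤ 1 := by
      apply hint_le
      exact IsIntegral.sum _ (fun j _ => hηint.pow j)
    calc v (∑ j ∈ Finset.range i, η ^ j) * v (η - 1) ≤ 1 * v (η - 1) :=
          mul_le_mul_left h4 _
      _ = v (η - 1) := one_mul _
      _ < 1 := h2
  -- the geometric sum vanishes
  have h5 : ∑ i ∈ Finset.range p, η ^ i = 0 := by
    have := geom_sum_mul η p
    rw [hηp, sub_self] at this
    rcases mul_eq_zero.1 this with h | h
    · exact h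
    · exact absurd (sub_eq_zero.1 h) hη1
  -- `v p < 1`
  have h6 : v (p : Qb) < 1 := by
    have : (p : Qb) = ∑ i ∈ Finset.range p, (1 - η ^ i) := by
      rw [Finset.sum_sub_distrib, h5, sub_zero, Finset.sum_const, Finset.card_range]
      simp
    rw [this]
    exact Valuation.map_sum_lt v one_ne_zero (fun i _ => h3 i)
  -- `v q < 1`
  have h7 : v (q : Qb) < 1 := (A.mem_nonunits_iff).1 hA
  -- Bezout
  have hcop : Nat.Coprime p q := (Nat.coprime_primes hp hq).2 (fun h => hqp h.symm)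
  obtain ⟨a, b, hab⟩ := (Nat.isCoprime_iff_coprime.2 hcop : IsCoprime (p : ℤ) (q : ℤ))
  have h8 : ((a : ℤ) : Qb) * (p : Qb) + ((b : ℤ) : Qb) * (q : Qb) = 1 := by
    have := congrArg (fun z : ℤ => (z : Qb)) hab
    simpa using this
  have hint : ∀ z : ℤ, v (z : Qb) ≤ 1 := fun z =>
    (A.valuation_le_one_iff _).2 (intCast_mem A z)
  have h9 : v (((a : ℤ) : Qb) * (p : Qb) + ((b : ℤ) : Qb) * (q : Qb)) < 1 := by
    apply Valuation.map_add_lt
    · rw [map_mul]
      calc v (a : Qb) * v (p : Qb) ≤ 1 * v (p : Qb) := mul_le_mul_left (hint a) _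
        _ = v (p : Qb) := one_mul _
        _ < 1 := h6
    · rw [map_mul]
      calc v (b : Qb) * v (q : Qb) ≤ 1 * v (q : Qb) := mul_le_mul_left (hint b) _
        _ = v (q : Qb) := one_mul _
        _ < 1 := h7
  rw [h8, map_one] at h9
  exact lt_irrefl _ h9

/-- the cyclotomic character is trivial on inertia at `q ≠ p` -/
theorem h15f_cycloChar_inertia {q : ℕ} (hq : q.Prime) (hqp : q ≠ p)
    (A : ValuationSubring Qb) (hA : A.LiesOverPrime q) {σ : GQ}
    (hσ : σ ∈ A.inertiaSubgroupIn ℚ) : cycloChar p σ = 1 := by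
  obtain ⟨ζ, hζ⟩ := h15f_exists_primitiveRoot p
  exact h15f_cycloChar_eq_one_of_fix p hζ (h15f_inertia_fix_zeta p hq hqp A hA hσ hζ.pow_eq_one)

variable {p}

theorem dualTwist_ρ_eq_one {M : Rep.{0} (ZMod p) GQ} {s : GQ} (h1 : M.ρ s = 1)
    (h2 : cycloChar p s = 1) : (M.dualTwist (cycloChar p)).ρ s = 1 := by
  have h3 : M.ρ s⁻¹ = 1 := by
    have : M.ρ s⁻¹ * M.ρ s = 1 := by rw [← map_mul, inv_mul_cancel, map_one]
    rwa [h1, mul_one] at this
  apply LinearMap.ext
  intro f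
  rw [Rep.dualTwist_ρ_apply, h2, h3, Units.val_one, one_smul, Module.End.one_eq_id,
    LinearMap.comp_id]
  rfl

/-- the Tate dual of a smooth finite-dimensional module is smooth -/
theorem dualTwist_smooth (M : Rep.{0} (ZMod p) GQ) [Module.Finite (ZMod p) M]
    (hsm : ∀ m : M, ∃ F : IntermediateField ℚ Qb, FiniteDimensional ℚ F ∧
      ∀ s ∈ F.fixingSubgroup, M.ρ s m = m) :
    ∀ f : M.dualTwist (cycloChar p), ∃ F : IntermediateField ℚ Qb, FiniteDimensional ℚ F ∧
      ∀ s ∈ F.fixingSubgroup, (M.dualTwist (cycloChar p)).ρ s f = f := by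
  intro f
  obtain ⟨F, hF, h⟩ := h15f_exists_finite_le_ker M hsm
  obtain ⟨ζ, hζ⟩ := h15f_exists_primitiveRoot p
  have hζint : IsIntegral ℚ ζ :=
    (h15f_isIntegral_of_pow_eq_one (Fact.out : p.Prime).ne_zero hζ.pow_eq_one).tower_top
  haveI := hF
  haveI : FiniteDimensional ℚ (IntermediateField.adjoin ℚ {ζ}) :=
    IntermediateField.adjoin.finiteDimensional hζint
  refine ⟨F ⊔ IntermediateField.adjoin ℚ {ζ}, IntermediateField.finiteDimensional_sup _ _,
    fun s hs => ?_⟩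
  have hs1 : s ∈ F.fixingSubgroup := IntermediateField.fixingSubgroup_antitone le_sup_left hs
  have hs2 : s ∈ (IntermediateField.adjoin ℚ {ζ}).fixingSubgroup :=
    IntermediateField.fixingSubgroup_antitone le_sup_right hs
  have hs3 : s ζ = ζ :=
    (IntermediateField.mem_fixingSubgroup_iff _ s).1 hs2 ζ
      (IntermediateField.mem_adjoin_simple_self ℚ ζ)
  rw [dualTwist_ρ_eq_one (h s hs1) (h15f_cycloChar_eq_one_of_fix p hζ hs3)]
  rfl

/-- the Tate dual of a module unramified outside `S ∋ p` is unramified outside `S` -/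
theorem dualTwist_unram (S : Finset Nat.Primes) (hpS : pPrime p ∈ S)
    (M : Rep.{0} (ZMod p) GQ)
    (hMur : ∀ q : Nat.Primes, q ∉ S → ∀ A : ValuationSubring Qb,
      A.LiesOverPrime (q : ℕ) → ∀ g ∈ A.inertiaSubgroupIn ℚ, M.ρ g = 1) :
    ∀ q : Nat.Primes, q ∉ S → ∀ A : ValuationSubring Qb,
      A.LiesOverPrime (q : ℕ) → ∀ g ∈ A.inertiaSubgroupIn ℚ,
        (M.dualTwist (cycloChar p)).ρ g = 1 := by
  intro q hq A hA g hg
  have hqp : (q : ℕ) ≠ p := by
    intro h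
    apply hq
    have : q = pPrime p := Subtype.ext h
    rw [this]
    exact hpS
  exact dualTwist_ρ_eq_one (hMur q hq A hA g hg) (h15f_cycloChar_inertia p q.2 hqp A hA hg)

/-- **a common level for `M` and its Tate dual** -/
theorem exists_isLevel_both (S : Finset Nat.Primes) (hpS : pPrime p ∈ S)
    (M : Rep.{0} (ZMod p) GQ) [Module.Finite (ZMod p) M]
    (hsm : ∀ m : M, ∃ F : IntermediateField ℚ Qb, FiniteDimensional ℚ F ∧
      ∀ s ∈ F.fixingSubgroup, M.ρ s m = m)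
    (hMur : ∀ q : Nat.Primes, q ∉ S → ∀ A : ValuationSubring Qb,
      A.LiesOverPrime (q : ℕ) → ∀ g ∈ A.inertiaSubgroupIn ℚ, M.ρ g = 1) :
    ∃ F : IntermediateField ℚ Qb, IsLevel S M F ∧ IsLevel S (M.dualTwist (cycloChar p)) F := by
  obtain ⟨F₁, hF₁⟩ := exists_isLevel S M hsm hMur
  haveI : Module.Finite (ZMod p) (M.dualTwist (cycloChar p)) :=
    inferInstanceAs (Module.Finite (ZMod p) (Module.Dual (ZMod p) M))
  obtain ⟨F₂, hF₂⟩ := exists_isLevel S (M.dualTwist (cycloChar p)) (dualTwist_smooth M hsm)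
    (dualTwist_unram S hpS M hMur)
  refine ⟨F₁ ⊔ F₂, hF₁.sup hF₂.unram hF₂.normal, ?_⟩
  have := hF₂.sup hF₁.unram hF₁.normal
  rwa [sup_comm] at this

end H15F

end
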