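/-
W2-C (S55) block F (helper15): finite-level (`Γ`-)versions of the unfolding lemmas.

`LevelMap M F π` : `π : Gal(ℚ̄/ℚ) →* Γ` is surjective with kernel `Gal(ℚ̄/F)`, which acts trivially
on `M`.  Then `M` descends to `LevelMap.rep : Rep k Γ` and
* `exists_cocycle₂` : every class of `continuousH2S S M` is the inflation of a 2-cocycle of `Γ_F`
  for some level `F` (above any given one);
* `π_infl_eq_zero_iff` : the inflation of a 2-cocycle of `Γ_F` vanishes in `continuousH2S S M`
  iff it becomes a coboundary at some higher level;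
* `locRes_infl_eq_zero_iff` : same for the localisations.
-/
import Mathlib
import Fermat.Prelude.Def_GroupCohomology_ContinuousUnramified
import Fermat.Agent.CFT2.F.Unfold_helper15
import Fermat.Agent.CFT2.F.UnfoldH1_helper15

set_option autoImplicit false
set_option linter.style.haveILetI false

noncomputable section

namespace H15F

open groupCohomology CategoryTheory

local notation "Qb" => AlgebraicClosure ℚ
local notation "GQ" => (AlgebraicClosure ℚ ≃ₐ[ℚ] AlgebraicClosure ℚ)

local instance h15f_inst_isGalois_Qb' : IsGalois ℚ Qb := h15f_isGalois_Qb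

variable {k : Type} [CommRing k]

/-- a presentation of the Galois group of a finite level `F` as a quotient of `Gal(ℚ̄/ℚ)` -/
structure LevelMap (M : Rep.{0} k GQ) (F : IntermediateField ℚ Qb) {Γ : Type} [Group Γ]
    (π : GQ →* Γ) : Prop where
  surj : Function.Surjective π
  ker : π.ker = F.fixingSubgroup
  triv : ∀ s ∈ F.fixingSubgroup, M.ρ s = 1

namespace LevelMap

variable {M : Rep.{0} k GQ} {F : IntermediateField ℚ Qb} {Γ : Type} [Group Γ] {π : GQ →* Γ}

theorem triv' (h : LevelMap M F π) : ∀ s ∈ π.ker, M.ρ s = 1 := by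
  intro s hs
  rw [h.ker] at hs
  exact h.triv s hs

/-- `M` as a representation of `Γ` -/
abbrev rep (h : LevelMap M F π) : Rep.{0} k Γ := descRep π h.surj M h.triv'

/-- inflation of 1-cochains -/
def inf₁ (h : LevelMap M F π) (f : Γ → h.rep) : GQ → M := infl₁ π h.surj M h.triv' f

/-- inflation of 2-cochains -/
def inf₂ (h : LevelMap M F π) (f : Γ × Γ → h.rep) : GQ × GQ → M := infl₂ π h.surj M h.triv' f

theorem inf₁_apply (h : LevelMap M F π) (f : Γ → h.rep) (g : GQ) : h.inf₁ f g = f (π g) := rfl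

theorem inf₂_apply (h : LevelMap M F π) (f : Γ × Γ → h.rep) (g g' : GQ) :
    h.inf₂ f (g, g') = f (π g, π g') := rfl

theorem rep_ρ_π (h : LevelMap M F π) (g : GQ) (m : M) : h.rep.ρ (π g) m = M.ρ g m :=
  descRep_ρ_π π h.surj M h.triv' g m

theorem isRConst₁_inf₁ (h : LevelMap M F π) (f : Γ → h.rep) :
    IsRConst₁ F.fixingSubgroup (h.inf₁ f) := by
  rw [← h.ker]
  exact isRConst₁_infl₁ π h.surj M h.triv' f

theorem isRConst₂_inf₂ (h : LevelMap M F π) (f : Γ × Γ → h.rep) :
    IsRConst₂ F.fixingSubgroup (h.inf₂ f) := by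
  rw [← h.ker]
  exact isRConst₂_infl₂ π h.surj M h.triv' f

theorem inf₁_mem_cocycles₁_iff (h : LevelMap M F π) (f : Γ → h.rep) :
    h.inf₁ f ∈ cocycles₁ M ↔ f ∈ cocycles₁ h.rep :=
  (mem_cocycles₁_iff_infl π h.surj M h.triv' f).symm

theorem inf₂_mem_cocycles₂_iff (h : LevelMap M F π) (f : Γ × Γ → h.rep) :
    h.inf₂ f ∈ cocycles₂ M ↔ f ∈ cocycles₂ h.rep :=
  (mem_cocycles₂_iff_infl π h.surj M h.triv' f).symm

theorem d₁₂_inf₁ (h : LevelMap M F π) (b : Γ → h.rep) :
    (d₁₂ M).hom (h.inf₁ b) = h.inf₂ ((d₁₂ h.rep).hom b) :=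
  (d₁₂_infl π h.surj M h.triv' b).symm

theorem d₀₁_inf (h : LevelMap M F π) (m : M) :
    h.inf₁ ((d₀₁ h.rep).hom m) = (d₀₁ M).hom m :=
  d₀₁_infl π h.surj M h.triv' m

/-- every right-invariant 1-cochain is an inflation -/
theorem exists_inf₁_eq (h : LevelMap M F π) {b : GQ → M} (hb : IsRConst₁ F.fixingSubgroup b) :
    ∃ b' : Γ → h.rep, h.inf₁ b' = b := by
  rw [← h.ker] at hb
  exact ⟨dsc₁ π h.surj M h.triv' b, infl₁_dsc₁ π h.surj M h.triv' hb⟩

/-- every right-invariant 2-cochain is an inflation -/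
theorem exists_inf₂_eq (h : LevelMap M F π) {c : GQ × GQ → M}
    (hc : IsRConst₂ F.fixingSubgroup c) :
    ∃ c' : Γ × Γ → h.rep, h.inf₂ c' = c := by
  rw [← h.ker] at hc
  exact ⟨dsc₂ π h.surj M h.triv' c, infl₂_dsc₂ π h.surj M h.triv' hc⟩

theorem inf₁_injective (h : LevelMap M F π) : Function.Injective h.inf₁ :=
  infl₁_injective π h.surj M h.triv'

theorem inf₂_injective (h : LevelMap M F π) : Function.Injective h.inf₂ :=
  infl₂_injective π h.surj M h.triv'

end LevelMap

/-- the canonical presentation `Gal(ℚ̄/ℚ) → Gal(ℚ̄/ℚ) ⧸ Gal(ℚ̄/F)` -/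
theorem levelMap_mk {M : Rep.{0} k GQ} {F : IntermediateField ℚ Qb} (hF : IsFinLevel M F) :
    haveI := hF.normal
    LevelMap M F (QuotientGroup.mk' F.fixingSubgroup) := by
  haveI := hF.normal
  exact ⟨QuotientGroup.mk'_surjective _, QuotientGroup.ker_mk' _, hF.triv⟩

end H15F

end
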