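/-
W2-C (S55) block F (helper15): `continuousH2S S M` and its localisations as colimits over finite
levels.

For a level `F` with presentation `h : LevelMap M F π` (`π : Gal(ℚ̄/ℚ) →* Γ`):
* `h.cls₂ S hF : cocycles₂ h.rep →ₗ[k] continuousH2S S M`  (class of the inflated cocycle);
* `exists_cls₂_eq` : every class is of this form for a suitable level;
* `cls₂_eq_zero_iff` : `cls₂ c = 0` iff `c` becomes a coboundary at some higher level;
* `locRes₂S_cls₂_eq_zero_iff` : the localisation of `cls₂ c` along `r : H →* Gal(ℚ̄/ℚ)` vanishes iff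
  the restriction of `c` to the image of `H` becomes a coboundary at some higher finite level.
-/
import Mathlib
import Fermat.Prelude.Def_GroupCohomology_ContinuousUnramified
import Fermat.Agent.CFT2.F.Gamma_helper15

set_option autoImplicit false
set_option linter.style.haveILetI false

noncomputable section

namespace H15F

open groupCohomology CategoryTheory

local notation "Qb" => AlgebraicClosure ℚ
local notation "GQ" => (AlgebraicClosure ℚ ≃ₐ[ℚ] AlgebraicClosure ℚ)

variable {k : Type} [CommRing k] (S : Finset Nat.Primes) {M : Rep.{0} k GQ}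
  {F : IntermediateField ℚ Qb} {Γ : Type} [Group Γ] {π : GQ →* Γ}

namespace LevelMap

theorem inf₂_mem_levelCocyclesS₂ (h : LevelMap M F π) (hF : F.IsUnramifiedOutside S)
    (c : cocycles₂ h.rep) : h.inf₂ c ∈ levelCocyclesS₂ S M :=
  h15f_mem_levelCocyclesS₂ S M hF ((h.inf₂_mem_cocycles₂_iff c).2 c.2) (h.isRConst₂_inf₂ c)

/-- the class in `continuousH2S S M` of the inflation of a cocycle of `Γ` -/
def cls₂ (h : LevelMap M F π) (hF : F.IsUnramifiedOutside S) :
    cocycles₂ h.rep →ₗ[k] continuousH2S S M where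
  toFun c := continuousH2Sπ S M ⟨h.inf₂ c, h.inf₂_mem_levelCocyclesS₂ S hF c⟩
  map_add' c c' := by
    rw [← map_add]
    rfl
  map_smul' a c := by
    rw [RingHom.id_apply, ← map_smul]
    rfl

theorem cls₂_apply (h : LevelMap M F π) (hF : F.IsUnramifiedOutside S) (c : cocycles₂ h.rep) :
    h.cls₂ S hF c = continuousH2Sπ S M ⟨h.inf₂ c, h.inf₂_mem_levelCocyclesS₂ S hF c⟩ := rfl

end LevelMap

/-- **every class comes from a finite level** -/
theorem exists_cls₂_eq {F₀ : IntermediateField ℚ Qb} (hF₀ : IsLevel S M F₀)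
    (x : continuousH2S S M) :
    ∃ F : IntermediateField ℚ Qb, F₀ ≤ F ∧ ∃ hF : IsLevel S M F,
      ∀ (Γ : Type) [Group Γ] (π : GQ →* Γ) (h : LevelMap M F π),
        ∃ c : cocycles₂ h.rep, h.cls₂ S hF.unram c = x := by
  obtain ⟨F, h1, hF, c, hc, rfl⟩ := h15f_exists_rep₂ S M hF₀ x
  refine ⟨F, h1, hF, fun Γ _ π h => ?_⟩
  obtain ⟨c', hc'⟩ := h.exists_inf₂_eq hc
  have hmem : c' ∈ cocycles₂ h.rep := by
    rw [← h.inf₂_mem_cocycles₂_iff, hc']
    exact c.2.1
  refine ⟨⟨c', hmem⟩, ?_⟩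
  rw [LevelMap.cls₂_apply]
  congr 1
  exact Subtype.ext hc'

/-- **vanishing of a class coming from a finite level** -/
theorem cls₂_eq_zero_iff (h : LevelMap M F π) (hF : IsLevel S M F) (c : cocycles₂ h.rep) :
    h.cls₂ S hF.unram c = 0 ↔
      ∃ F' : IntermediateField ℚ Qb, F ≤ F' ∧ IsLevel S M F' ∧
        ∀ (Γ' : Type) [Group Γ'] (π' : GQ →* Γ') (h' : LevelMap M F' π'),
          ∃ b : Γ' → h'.rep, h'.inf₂ ((d₁₂ h'.rep).hom b) = h.inf₂ c := by
  rw [LevelMap.cls₂_apply, h15f_π_eq_zero_iff S M hF]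
  constructor
  · rintro ⟨F', h1, hF', b, hb, hbc⟩
    refine ⟨F', h1, hF', fun Γ' _ π' h' => ?_⟩
    obtain ⟨b', hb'⟩ := h'.exists_inf₁_eq hb
    refine ⟨b', ?_⟩
    rw [← h'.d₁₂_inf₁, hb', hbc]
  · rintro ⟨F', h1, hF', hall⟩
    haveI := hF'.normal
    obtain ⟨b, hb⟩ := hall _ _ (levelMap_mk hF'.isFinLevel)
    refine ⟨F', h1, hF', (levelMap_mk hF'.isFinLevel).inf₁ b,
      (levelMap_mk hF'.isFinLevel).isRConst₁_inf₁ b, ?_⟩
    rw [LevelMap.d₁₂_inf₁, hb]

/-! ### localisation -/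

variable {H : Type} [Group H] (r : H →* GQ)

theorem h15f_exists_desc_along {F' : IntermediateField ℚ Qb} {Γ' : Type} [Group Γ']
    {π' : GQ →* Γ'} (h' : LevelMap M F' π') {b : H → M}
    (hb : IsRConst₁ (F'.fixingSubgroup.comap r) b) :
    ∃ b' : Γ' → h'.rep, ∀ x : H, b' (π' (r x)) = b x := by
  classical
  refine ⟨fun γ => if hγ : ∃ x : H, π' (r x) = γ then b hγ.choose else 0, fun x => ?_⟩
  have hex : ∃ y : H, π' (r y) = π' (r x) := ⟨x, rfl⟩
  show (if hγ : ∃ y : H, π' (r y) = π' (r x) then b hγ.choose else 0) = b x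
  rw [dif_pos hex]
  have h1 : π' (r hex.choose) = π' (r x) := hex.choose_spec
  have h2 : hex.choose⁻¹ * x ∈ F'.fixingSubgroup.comap r := by
    rw [Subgroup.mem_comap, ← h'.ker, MonoidHom.mem_ker, map_mul, map_mul, map_inv, map_inv, h1,
      inv_mul_cancel]
  have h3 := hb hex.choose _ h2
  rw [mul_inv_cancel_left] at h3
  exact h3.symm

/-- **vanishing of the localisation of a class coming from a finite level** -/
theorem locRes₂S_cls₂_eq_zero_iff (h : LevelMap M F π) (hF : IsLevel S M F)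
    (c : cocycles₂ h.rep) :
    locRes₂S S M r (h.cls₂ S hF.unram c) = 0 ↔
      ∃ F' : IntermediateField ℚ Qb, F ≤ F' ∧ IsFinLevel M F' ∧
        ∀ (Γ' : Type) [Group Γ'] (π' : GQ →* Γ') (h' : LevelMap M F' π'),
          ∃ b : Γ' → h'.rep, ∀ x y : H,
            (d₁₂ h'.rep).hom b (π' (r x), π' (r y)) = (c : Γ × Γ → h.rep) (π (r x), π (r y)) := by
  rw [LevelMap.cls₂_apply, h15f_locRes₂S_eq_zero_iff S M r hF.isFinLevel]
  constructor
  · rintro ⟨F', h1, hF', b, hb, hbc⟩
    refine ⟨F', h1, hF', fun Γ' _ π' h' => ?_⟩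
    obtain ⟨b', hb'⟩ := h15f_exists_desc_along r h' hb
    refine ⟨b', fun x y => ?_⟩
    have h2 := congrFun hbc (x, y)
    simp only [d₁₂_hom_apply] at h2 ⊢
    rw [← map_mul, ← map_mul, hb', hb', hb', h'.rep_ρ_π]
    exact h2
  · rintro ⟨F', h1, hF', hall⟩
    haveI := hF'.normal
    obtain ⟨b, hb⟩ := hall _ _ (levelMap_mk hF')
    refine ⟨F', h1, hF', fun x => b (QuotientGroup.mk' F'.fixingSubgroup (r x)), ?_, ?_⟩
    · intro g s hs
      have hs' : r s ∈ F'.fixingSubgroup := hs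
      show b (QuotientGroup.mk' F'.fixingSubgroup (r (g * s)))
        = b (QuotientGroup.mk' F'.fixingSubgroup (r g))
      rw [map_mul, map_mul]
      have : (QuotientGroup.mk' F'.fixingSubgroup) (r s) = 1 := by
        rw [← MonoidHom.mem_ker, QuotientGroup.ker_mk']
        exact hs'
      rw [this, mul_one]
    · funext ⟨x, y⟩
      have h2 := hb x y
      simp only [d₁₂_hom_apply] at h2 ⊢
      rw [← map_mul, ← map_mul, (levelMap_mk hF').rep_ρ_π] at h2
      exact h2

end H15F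

end
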